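import Fermat.Agent.CFT.K.Datum

/-!
# CFT / Global / GC3 : the Hasse norm theorem in `ℚbar`-language (statement)

`V ≤ GQ` is an open subgroup of `G_S` (it contains an `S`-level), `F = ℚbar^V ∋ ζ`,
`M = F(B)`, `B ^ p ∈ F`, `g B = ζ ^ i B` for `g ∈ V`, `σ B = ζ B`; `M / F` is unramified outside `S`
(`B` is fixed by an `S`-level).  So `Gal(ℚbar / M) = {g ∈ V | g B = B}`.
-/

set_option autoImplicit false

namespace Fermat.Agent.CFT.Global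

open Fermat.Agent.CFT

/-- `a` is a local norm at `A` from `M = F(B)`, `F = ℚbar^V`
(either `A` splits in `M`, or `a = N(b)`, `b` in the henselian local field of `M` at `A`). -/
def IsLocNorm (p : ℕ) (V : Subgroup GQ) (ζ B : Qb) (A : ValuationSubring Qb) (a : Qb) : Prop :=
  (∀ τ ∈ A.decompositionSubgroup ℚ, τ ∈ V → τ B = B) ∨
    ∃ τ ∈ A.decompositionSubgroup ℚ, τ ∈ V ∧ τ B = ζ * B ∧
      ∃ b : Qb, (∀ g ∈ A.decompositionSubgroup ℚ, g ∈ V → g B = B → g b = b) ∧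
        a = ∏ i ∈ Finset.range p, (τ ^ i) b

/-- (l2) the local norm index is `> 1` for a non-split place. (LOCAL, chain NI.) -/
def LocalNonNorm (p : ℕ) : Prop :=
  ∀ (q : ℕ) (A : ValuationSubring Qb) (V : Subgroup GQ) (ζ B : Qb) (τ : GQ),
    q.Prime → A.LiesOverPrime q →
    (∃ U ∈ levAll.carrier, U ≤ V) → IsPrimitiveRoot ζ p → (∀ g ∈ V, g ζ = ζ) → B ≠ 0 →
    (∀ g ∈ V, ∃ i : ℕ, g B = ζ ^ i * B) →
    τ ∈ A.decompositionSubgroup ℚ → τ ∈ V → τ B = ζ * B →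
    ∃ c : Qb, c ≠ 0 ∧ (∀ g ∈ A.decompositionSubgroup ℚ, g ∈ V → g c = c) ∧
      ¬ ∃ b : Qb, (∀ g ∈ A.decompositionSubgroup ℚ, g ∈ V → g B = B → g b = b) ∧
        c = ∏ i ∈ Finset.range p, (τ ^ i) b

/-- The Hasse norm theorem for `M = F(B)` over `F = ℚbar^V`. -/
def HNTStatement (p : ℕ) (S : Finset Nat.Primes) : Prop :=
  ∀ (V : Subgroup GQ) (ζ B a : Qb) (σ : GQ),
    (∃ U ∈ (levS S).carrier, U ≤ V) → IsPrimitiveRoot ζ p → (∀ g ∈ V, g ζ = ζ) → B ≠ 0 →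
    (∀ g ∈ V, ∃ i : ℕ, g B = ζ ^ i * B) → (∃ U ∈ (levS S).carrier, ∀ s ∈ U, s B = B) →
    σ ∈ V → σ B = ζ * B → a ≠ 0 → (∀ g ∈ V, g a = a) →
    (∀ q ∈ S, ∀ A : ValuationSubring Qb, A.LiesOverPrime (q : ℕ) → IsLocNorm p V ζ B A a) →
    (∀ q : Nat.Primes, q ∉ S → ∀ A : ValuationSubring Qb, A.LiesOverPrime (q : ℕ) →
      (∃ τ ∈ A.decompositionSubgroup ℚ, τ ∈ V ∧ τ B ≠ B) →
        ∃ n : ℤ, A.valuation a = A.valuation ((q : ℕ) : Qb) ^ ((p : ℤ) * n)) →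
    ∃ b : Qb, (∀ g ∈ V, g B = B → g b = b) ∧ a = ∏ i ∈ Finset.range p, (σ ^ i) b

end Fermat.Agent.CFT.Global
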