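import Fermat.Agent.CFT.Global.GC3.ValTrick
import Fermat.Agent.CFT.Global.GC3.HNTSpec

/-!
# CFT / Global / GC3 : the cyclic step of the Hasse principle
-/

set_option autoImplicit false

namespace Fermat.Agent.CFT.Global

open Fermat.Agent.CFT Finset

variable {p : ℕ} [Fact p.Prime] {S : Finset Nat.Primes} {G : Type} [Group G]

/-- `r : G →* GQ` has open image in `G_S` and fixes `ζ` -/
structure Arith (S : Finset Nat.Primes) (ζ : Qb) (r : G →* GQ) : Prop where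
  isOpen : ∃ U ∈ (levS S).carrier, U ≤ r.range
  fix : ∀ g, r g ζ = ζ

theorem Arith.sub {ζ : Qb} {r : G →* GQ} (h : Arith S ζ r) (H : Subgroup G)
    (hH : ∃ U ∈ ((levS S).comap r).carrier, U ≤ H) : Arith S ζ (r.comp H.subtype) := by
  refine ⟨?_, fun g => h.fix _⟩
  obtain ⟨_, ⟨U₀, hU₀, rfl⟩, hle⟩ := hH
  obtain ⟨U₁, hU₁, hle₁⟩ := h.isOpen
  obtain ⟨W, hW, h0, h1⟩ := (levS S).directed U₀ hU₀ U₁ hU₁
  refine ⟨W, hW, fun s hs => ?_⟩
  obtain ⟨g, rfl⟩ := hle₁ (h1 hs)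
  exact ⟨⟨g, hle (h0 hs)⟩, rfl⟩

/-- local triviality (in `ℚbarˣ`) at all places above `S`, in a form stable under restriction -/
def LocTrivU (S : Finset Nat.Primes) (r : G →* GQ) (y : G × G → VS S) : Prop :=
  ∀ q ∈ S, ∀ A : ValuationSubring Qb, A.LiesOverPrime ((q : Nat.Primes) : ℕ) →
    ∀ (H : Type) [Group H] (j : H →* G), (∀ h, r (j h) ∈ A.decompositionSubgroup ℚ) →
      (fun g : H × H => inclS S (y (j g.1, j g.2))) ∈
        B2 (levAll.comap (r.comp j)) (rhoQ.comp (r.comp j))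

theorem isSmooth_rhoS_comp (r : G →* GQ) : IsSmooth ((levS S).comap r) ((rhoS S).comp r) :=
  (isSmooth_smoothRep _ _).comp_hom r (Levels.comap_cont _ r)

section Kummer

variable {ζ : Qb} {r : G →* GQ} {χ : G →* Multiplicative (ZMod p)} {z : VS S}

theorem rhoS_z (hz : toQb (inclS S z) = ζ) (hr : Arith S ζ r) (g : G) :
    (rhoS S).comp r g z = z := by
  apply Subtype.ext
  apply toQb_injective
  change r g (toQb (inclS S z)) = toQb (inclS S z)
  rw [hz, hr.fix]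

theorem p_nsmul_z (hζ : IsPrimitiveRoot ζ p) (hz : toQb (inclS S z) = ζ) : p • z = 0 := by
  apply Subtype.ext
  apply toQb_injective
  change toQb (inclS S z) ^ p = 1
  rw [hz, hζ.pow_eq_one]

/-- the Kummer generator attached to `χ` -/
theorem exists_kummer_gen (hζ : IsPrimitiveRoot ζ p) (hz : toQb (inclS S z) = ζ)
    (hr : Arith S ζ r) (hχ : ∃ U ∈ ((levS S).comap r).carrier, U ≤ χ.ker) :
    ∃ β : VS S, ∀ g, r g (toQb (inclS S β)) = ζ ^ chiVal χ g * toQb (inclS S β) := by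
  have hc : (fun g => chiVal χ g • z) ∈ Z1 ((levS S).comap r) ((rhoS S).comp r) := by
    refine ⟨LinearMap.mem_ker.2 ?_, ?_⟩
    · funext ⟨g, h⟩
      simp only [d12_apply, Pi.zero_apply, map_nsmul, rhoS_z hz hr]
      have e := chiVal_add χ g h
      have e2 : (chiVal χ g + chiVal χ h) • z = (chiVal χ (g * h) + p * carry χ g h) • z := by
        rw [e]
      rw [add_smul, add_smul, mul_comm, mul_smul, p_nsmul_z hζ hz, smul_zero, add_zero] at e2
      rw [← e2]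
      abel
    · obtain ⟨U, hU, hle⟩ := hχ
      exact ⟨U, hU, fun g s hs => by simp only [chiVal_mul_ker χ g (hle hs)]⟩
  obtain ⟨β, hβ⟩ := h90_S S r hr.isOpen hc
  refine ⟨β, fun g => ?_⟩
  have e := congrArg (fun v => toQb (inclS S v)) (congrFun hβ g)
  simp only [d01_apply, map_sub, toQb_sub, map_nsmul, toQb_nsmul, hz] at e
  rw [div_eq_iff (toQb_ne_zero _)] at e
  exact e

theorem chiVal_eq_zero_iff (g : G) : chiVal χ g = 0 ↔ g ∈ χ.ker := by
  constructor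
  · intro h
    rw [MonoidHom.mem_ker]
    apply Multiplicative.toAdd.injective
    rw [toAdd_one]
    exact (ZMod.val_eq_zero _).1 h
  · exact chiVal_of_mem_ker χ

theorem mem_ker_of_fix (hζ : IsPrimitiveRoot ζ p) {B : Qb} (hB0 : B ≠ 0)
    (hB : ∀ g, r g B = ζ ^ chiVal χ g * B) {g : G} (hg : r g B = B) : g ∈ χ.ker := by
  rw [← chiVal_eq_zero_iff]
  have h1 : ζ ^ chiVal χ g = 1 := by
    have := hB g
    rw [hg] at this
    exact (mul_right_cancel₀ hB0 ((one_mul B).trans this)).symm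
  exact Nat.eq_zero_of_dvd_of_lt ((hζ.pow_eq_one_iff_dvd _).1 h1) (chiVal_lt χ g)

theorem chiVal_of_eq_one {g : G} (hg : χ g = Multiplicative.ofAdd 1) : chiVal χ g = 1 := by
  have : Fact (1 < p) := ⟨(Fact.out : p.Prime).one_lt⟩
  rw [chiVal, hg, toAdd_ofAdd, ZMod.val_one]

theorem exists_pow_chi_eq_one {τ : G} (hτ : χ τ ≠ 1) :
    ∃ m : ℕ, χ (τ ^ m) = Multiplicative.ofAdd 1 := by
  set c : ZMod p := Multiplicative.toAdd (χ τ) with hc
  have hc0 : c ≠ 0 := by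
    intro h
    apply hτ
    apply Multiplicative.toAdd.injective
    rw [toAdd_one, ← hc, h]
  refine ⟨(c⁻¹).val, ?_⟩
  apply Multiplicative.toAdd.injective
  rw [map_pow, toAdd_pow, toAdd_ofAdd, ← hc, nsmul_eq_mul, ZMod.natCast_zmod_val,
    inv_mul_cancel₀ hc0]

end Kummer

theorem toQb_inclS_pnorm (r : G →* GQ) (σ : G) (m : ℕ) (b : VS S) :
    toQb (inclS S (pnorm ((rhoS S).comp r) σ m b))
      = ∏ i ∈ range m, ((r σ) ^ i) (toQb (inclS S b)) := by
  rw [pnorm, map_sum, toQb_sum]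
  refine prod_congr rfl fun i _ => ?_
  change (r (σ ^ i)) (toQb (inclS S b)) = _
  rw [map_pow]

theorem toQb_pnorm (r : G →* GQ) (σ : G) (m : ℕ) (b : Additive Qbˣ) :
    toQb (pnorm (rhoQ.comp r) σ m b) = ∏ i ∈ range m, ((r σ) ^ i) (toQb b) := by
  rw [pnorm, toQb_sum]
  refine prod_congr rfl fun i _ => ?_
  change (r (σ ^ i)) (toQb b) = _
  rw [map_pow]

/-- the local norm condition at the places above `S` -/
theorem isLocNorm_of_locTriv {ζ : Qb} (hζ : IsPrimitiveRoot ζ p) {r : G →* GQ}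
    {χ : G →* Multiplicative (ZMod p)} {y : G × G → VS S} {a : VS S}
    (ha : ∀ g, (rhoS S).comp r g a = a)
    (hya : y - cyc χ a ∈ B2 ((levS S).comap r) ((rhoS S).comp r)) (hloc : LocTrivU S r y)
    {B : Qb} (hB0 : B ≠ 0) (hB : ∀ g, r g B = ζ ^ chiVal χ g * B)
    {q : Nat.Primes} (hq : q ∈ S) {A : ValuationSubring Qb} (hA : A.LiesOverPrime (q : ℕ)) :
    IsLocNorm p r.range ζ B A (toQb (inclS S a)) := by
  by_cases hsplit : ∀ τ : G, r τ ∈ A.decompositionSubgroup ℚ → χ τ = 1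
  · left
    rintro _ hτD ⟨τ, rfl⟩
    rw [hB, chiVal_of_mem_ker χ (MonoidHom.mem_ker.2 (hsplit τ hτD)), pow_zero, one_mul]
  · right
    push Not at hsplit
    obtain ⟨τ₀, hτ₀D, hτ₀⟩ := hsplit
    obtain ⟨m, hm⟩ := exists_pow_chi_eq_one hτ₀
    set D : Subgroup G := (A.decompositionSubgroup ℚ).comap r with hD
    set σD : ↥D := ⟨τ₀ ^ m, pow_mem (show τ₀ ∈ D from hτ₀D) m⟩ with hσD
    set χD : ↥D →* Multiplicative (ZMod p) := χ.comp D.subtype with hχD
    have hσ1 : χD σD = Multiplicative.ofAdd 1 := hm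
    -- the cyclic class is trivial on `D`
    have h1 : (y - cyc χ a) ∘ Prod.map D.subtype D.subtype ∈
        B2 (levAll.comap (r.comp D.subtype)) (((rhoS S).comp r).comp D.subtype) := by
      refine comp_hom_mem_B2 D.subtype ?_ hya
      rintro _ ⟨U₀, hU₀, rfl⟩
      exact ⟨_, ⟨U₀, levS_le_levAll S hU₀, rfl⟩, le_rfl⟩
    have h2 : inclS S ∘ ((y - cyc χ a) ∘ Prod.map D.subtype D.subtype) ∈
        B2 (levAll.comap (r.comp D.subtype)) (rhoQ.comp (r.comp D.subtype)) :=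
      comp_mem_B2 (inclS S) (fun _ _ => rfl) h1
    have h3 := hloc q hq A hA ↥D D.subtype (fun h => h.2)
    have hcyc : cyc χD (inclS S a) ∈
        B2 (levAll.comap (r.comp D.subtype)) (rhoQ.comp (r.comp D.subtype)) := by
      have e : cyc χD (inclS S a) = (fun g : ↥D × ↥D => inclS S (y (D.subtype g.1, D.subtype g.2)))
          - inclS S ∘ ((y - cyc χ a) ∘ Prod.map D.subtype D.subtype) := by
        funext ⟨g, h⟩
        simp only [Pi.sub_apply, Function.comp_apply, Prod.map_apply, map_sub, cyc_apply,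
          map_nsmul, sub_sub_cancel]
        rfl
      rw [e]
      exact Submodule.sub_mem _ h3 h2
    have h90 : Z1 ((levAll.comap (r.comp D.subtype)).sub χD.ker)
        (resRep (rhoQ.comp (r.comp D.subtype)) χD.ker)
        ≤ B1 (resRep (rhoQ.comp (r.comp D.subtype)) χD.ker) := by
      rw [sub_comap_eq]
      exact h90_all ((r.comp D.subtype).comp χD.ker.subtype)
    obtain ⟨b, hb, hab⟩ := exists_norm_of_cyc_mem_B2 (σ := σD) hσ1 h90
      (a := inclS S a) (fun g => congrArg (inclS S) (ha g)) hcyc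
    refine ⟨r (τ₀ ^ m), pow_mem (show τ₀ ∈ D from hτ₀D) m, ⟨_, rfl⟩, ?_, toQb b, ?_, ?_⟩
    · rw [hB, chiVal_of_eq_one hm, pow_one]
    · rintro _ hgD ⟨g, rfl⟩ hgB
      have hk : (⟨g, hgD⟩ : ↥D) ∈ χD.ker := mem_ker_of_fix hζ hB0 hB hgB
      exact congrArg toQb (hb _ hk)
    · rw [hab]
      exact toQb_pnorm (r.comp D.subtype) σD p b

/-- **The cyclic step.** -/
theorem cyc_mem_B2_of_hnt (hHNT : HNTStatement p S) {ζ : Qb} (hζ : IsPrimitiveRoot ζ p)
    {z : VS S} (hz : toQb (inclS S z) = ζ) {r : G →* GQ} (hr : Arith S ζ r)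
    {χ : G →* Multiplicative (ZMod p)} (hχ : ∃ U ∈ ((levS S).comap r).carrier, U ≤ χ.ker)
    {σ : G} (hσ : χ σ = Multiplicative.ofAdd 1)
    (mu : ZMod p →+ VS S) (x : G × G → ZMod p) {a : VS S}
    (ha : ∀ g, (rhoS S).comp r g a = a)
    (hxa : (fun g => mu (x g)) - cyc χ a ∈ B2 ((levS S).comap r) ((rhoS S).comp r))
    (hloc : LocTrivU S r (fun g => mu (x g))) :
    cyc χ a ∈ B2 ((levS S).comap r) ((rhoS S).comp r) := by
  have hp : p.Prime := Fact.out
  obtain ⟨β, hβ⟩ := exists_kummer_gen hζ hz hr hχ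
  set B : Qb := toQb (inclS S β) with hBdef
  have hB0 : B ≠ 0 := toQb_ne_zero _
  obtain ⟨UB, hUB, hfixB⟩ := mem_VS_iff.1 β.2
  obtain ⟨b₀, hb₀fix, hb₀⟩ := hHNT r.range ζ B (toQb (inclS S a)) (r σ) hr.isOpen hζ
    (by rintro _ ⟨g, rfl⟩; exact hr.fix g) hB0
    (by rintro _ ⟨g, rfl⟩; exact ⟨_, hβ g⟩) ⟨UB, hUB, hfixB⟩ ⟨σ, rfl⟩
    (by rw [hβ, chiVal_of_eq_one hσ, pow_one]) (toQb_ne_zero _)
    (by rintro _ ⟨g, rfl⟩; exact congrArg (fun v => toQb (inclS S v)) (ha g))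
    (fun q hq A hA => isLocNorm_of_locTriv hζ ha hxa hloc hB0 hβ hq hA)
    (by
      rintro q hq A hA ⟨_, hτD, ⟨τ, rfl⟩, hτB⟩
      refine exists_val_eq_zpow_mul r χ mu x a hxa hq hA hτD ?_
      intro h1
      apply hτB
      rw [hβ, chiVal_of_mem_ker χ (MonoidHom.mem_ker.2 h1), pow_zero, one_mul])
  have hb₀0 : b₀ ≠ 0 := by
    rintro rfl
    apply toQb_ne_zero (inclS S a)
    rw [hb₀]
    exact prod_eq_zero (mem_range.2 hp.pos) (map_zero _)
  obtain ⟨U₁, hU₁, hle₁⟩ := hr.isOpen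
  obtain ⟨W, hW, hW1, hW2⟩ := (levS S).directed U₁ hU₁ UB hUB
  let β' : VS S := ⟨ofQb b₀ hb₀0, mem_VS_iff.2 ⟨W, hW, fun s hs =>
    hb₀fix s (hle₁ (hW1 hs)) (hfixB s (hW2 hs))⟩⟩
  have hβ' : ∀ s ∈ χ.ker, (rhoS S).comp r s β' = β' := by
    intro s hs
    apply Subtype.ext
    apply toQb_injective
    change r s b₀ = b₀
    refine hb₀fix _ ⟨s, rfl⟩ ?_
    rw [hβ, chiVal_of_mem_ker χ hs, pow_zero, one_mul]
  have hanorm : a = pnorm ((rhoS S).comp r) σ p β' := by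
    apply Subtype.ext
    apply toQb_injective
    change toQb (inclS S a) = toQb (inclS S _)
    rw [toQb_inclS_pnorm, hb₀]
    rfl
  rw [hanorm]
  exact cyc_mem_B2_of_norm hσ hχ hβ'

end Fermat.Agent.CFT.Global
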