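import Fermat.Agent.CFT.Global.GC3.Induct
import Fermat.Agent.CFT.Global.TG6.Spec

/-!
# CFT / Global / GC3 : the Hasse principle in the elementary form `HasseS p S` of `TG6/Spec.lean`
-/

set_option autoImplicit false

namespace Fermat.Agent.CFT.Global

open Fermat.Agent.CFT Finset

variable {p : ℕ} [Fact p.Prime] {S : Finset Nat.Primes}

/-- `i ↦ i.val • z` as an additive map, for `p • z = 0` -/
noncomputable def muOf (z : VS S) (hz : p • z = 0) : ZMod p →+ VS S :=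
  ZMod.lift p ⟨zmultiplesHom (VS S) z, by simpa using hz⟩

theorem muOf_apply (z : VS S) (hz : p • z = 0) (i : ZMod p) : muOf z hz i = i.val • z := by
  have h := ZMod.lift_coe p (⟨zmultiplesHom (VS S) z, by simpa using hz⟩ :
    {f : ℤ →+ VS S // f p = 0}) (i.val : ℤ)
  have e : (((i.val : ℕ) : ℤ) : ZMod p) = i := by
    rw [Int.cast_natCast, ZMod.natCast_zmod_val]
  rw [e] at h
  rw [muOf, h]
  change (zmultiplesHom (VS S)) z ((i.val : ℕ) : ℤ) = _
  rw [zmultiplesHom_apply, natCast_zsmul]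

theorem locTriv_of_locTrivAll {V : Subgroup GQ} {x : ↥V × ↥V → ZMod p} (hx : LocTrivAll p S x)
    (mu : ZMod p →+ VS S) (hmu : ∀ (g : ↥V) (i : ZMod p), rhoS S (g : GQ) (mu i) = mu i) :
    LocTrivU S V.subtype (fun g => mu (x g)) := by
  intro q hq A hA H _ j hj
  let j' : H →* ↥(locSub V A) :=
    { toFun := fun h => ⟨j h, hj h⟩
      map_one' := by ext; simp
      map_mul' := fun a b => by ext; simp }
  have h1 := hx q hq A hA
  have h2 : (locRes2 A x) ∘ Prod.map j' j' ∈ B2 (levAll.comap (V.subtype.comp j))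
      ((resRep (1 : Representation (ZMod p) ↥V (ZMod p)) (locSub V A)).comp j') := by
    refine comp_hom_mem_B2 j' ?_ h1
    rintro _ ⟨_, ⟨U, hU, rfl⟩, rfl⟩
    exact ⟨_, ⟨U, hU, rfl⟩, le_rfl⟩
  have h3 := add_comp_mem_B2 (σ := rhoQ.comp (V.subtype.comp j))
    ((inclS S).toAddMonoidHom.comp mu) (fun g v => by
      have := congrArg (inclS S) (hmu (j g) v)
      exact this.symm) h2
  exact h3

/-- **GC3**: the Hasse principle, elementary form, from the Hasse norm theorem. -/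
theorem hasseS_of_hnt (hHNT : HNTStatement p S) : HasseS p S := by
  intro V ζ hV hζ hζV x hx hloc
  obtain ⟨U₁, hU₁, hle₁⟩ := hV
  have hζ0 : ζ ≠ 0 := hζ.ne_zero (Fact.out : p.Prime).ne_zero
  let z : VS S := ⟨ofQb ζ hζ0, mem_VS_iff.2 ⟨U₁, hU₁, fun s hs => hζV s (hle₁ hs)⟩⟩
  have hz : toQb (inclS S z) = ζ := rfl
  have hpz : p • z = 0 := p_nsmul_z hζ hz
  have hr : Arith S ζ V.subtype :=
    ⟨⟨U₁, hU₁, by rwa [Subgroup.range_subtype]⟩, fun g => hζV g g.2⟩
  have hmu := muOf_apply z hpz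
  have key := hasse_S hHNT hζ hz hmu hr hx
    (locTriv_of_locTrivAll hloc _ (fun g i => rhoS_mu hz hr hmu g i))
  obtain ⟨φ, ⟨_, ⟨U, hU, rfl⟩, hφU⟩, hφ⟩ := key
  -- a common level fixing all values of `φ`
  obtain ⟨U', hU', hφ1, -, hφ3⟩ := (isSmooth_rhoS_comp (S := S) V.subtype).exists_level_C1
    (f := φ) ⟨_, ⟨U, hU, rfl⟩, hφU⟩
  obtain ⟨U₂, hU₂, rfl⟩ := hU'
  obtain ⟨W, hW, hW1, hW2⟩ := (levS S).directed U₂ hU₂ U₁ hU₁
  refine ⟨fun g => toQb (inclS S (φ g)), ⟨fun g => toQb_ne_zero _, W, hW, ?_, ?_⟩, ?_⟩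
  · intro g s hs
    change toQb (inclS S (φ (g * s))) = toQb (inclS S (φ g))
    rw [hφ1 g s (hW1 hs)]
  · intro g s hs
    exact congrArg (fun v => toQb (inclS S v)) (hφ3 g ⟨s, hle₁ (hW2 hs)⟩ (hW1 hs))
  · intro g h
    have e := congrArg (fun v => toQb (inclS S v)) (congrFun hφ (g, h))
    simp only [d12_apply, map_add, map_sub, toQb_add, toQb_sub, hmu, map_nsmul, toQb_nsmul, hz] at e
    rw [← e]
    change (g : GQ) (toQb (inclS S (φ h))) / toQb (inclS S (φ (g * h))) * toQb (inclS S (φ g))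
      = (g : GQ) (toQb (inclS S (φ h))) * toQb (inclS S (φ g)) / toQb (inclS S (φ (g * h)))
    ring

end Fermat.Agent.CFT.Global
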