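import Mathlib

/-!
# CFT / Global / GC3 : two facts on finite quotients (Sylow, index `p` subgroups of `p`-groups)
-/

set_option autoImplicit false

namespace Fermat.Agent.CFT.Global

variable {G : Type} [Group G] {p : ℕ} [Fact p.Prime]

/-- If `G / U` is a `p`-group of order `p ^ (n+1)` there is a character of order `p` trivial
on `U`. -/
theorem exists_chi_of_index (U : Subgroup G) [U.Normal] {n : ℕ} (hU : U.index = p ^ (n + 1)) :
    ∃ χ : G →* Multiplicative (ZMod p), Function.Surjective χ ∧ U ≤ χ.ker ∧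
      (U.subgroupOf χ.ker).index = p ^ n := by
  have hp : p.Prime := Fact.out
  have hcard : Nat.card (G ⧸ U) = p ^ (n + 1) := by rw [← Subgroup.index_eq_card, hU]
  have : Finite (G ⧸ U) := Nat.finite_of_card_ne_zero (by rw [hcard]; exact pow_ne_zero _ hp.ne_zero)
  obtain ⟨K, hK⟩ := Sylow.exists_subgroup_card_pow_prime (G := G ⧸ U) p (n := n)
    (by rw [hcard]; exact pow_dvd_pow p (Nat.le_succ n))
  have hKi : K.index = p := by
    have := K.card_mul_index
    rw [hK, hcard, pow_succ] at this
    exact Nat.eq_of_mul_eq_mul_left (pow_pos hp.pos n) this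
  have hKn : K.Normal := by
    apply Subgroup.normal_of_index_eq_minFac_card
    rw [hKi, hcard, hp.pow_minFac (Nat.succ_ne_zero n)]
  have hc1 : Nat.card ((G ⧸ U) ⧸ K) = p := by rw [← Subgroup.index_eq_card, hKi]
  have hc2 : Nat.card (Multiplicative (ZMod p)) = p := by
    rw [Nat.card_eq_fintype_card, Fintype.card_multiplicative, ZMod.card]
  let e : (G ⧸ U) ⧸ K ≃* Multiplicative (ZMod p) := mulEquivOfPrimeCardEq hc1 hc2
  let χ : G →* Multiplicative (ZMod p) :=
    e.toMonoidHom.comp ((QuotientGroup.mk' K).comp (QuotientGroup.mk' U))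
  have hsurj : Function.Surjective χ :=
    e.surjective.comp ((QuotientGroup.mk'_surjective K).comp (QuotientGroup.mk'_surjective U))
  have hle : U ≤ χ.ker := by
    intro u hu
    rw [MonoidHom.mem_ker]
    change e (QuotientGroup.mk' K (QuotientGroup.mk' U u)) = 1
    rw [show QuotientGroup.mk' U u = 1 from (QuotientGroup.eq_one_iff u).2 hu, map_one, map_one]
  refine ⟨χ, hsurj, hle, ?_⟩
  have hki : χ.ker.index = p := by
    rw [Subgroup.index_ker, MonoidHom.range_eq_top.2 hsurj, Nat.card_congr Subgroup.topEquiv.toEquiv,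
      hc2]
  have := Subgroup.relIndex_mul_index hle
  rw [hki, hU, pow_succ] at this
  exact Nat.eq_of_mul_eq_mul_right hp.pos this

/-- Sylow: an intermediate subgroup of index prime to `p` over which `U` has `p`-power index. -/
theorem exists_sylow_of_finiteIndex (p : ℕ) [Fact p.Prime] (U : Subgroup G) [U.Normal]
    [U.FiniteIndex] :
    ∃ H : Subgroup G, U ≤ H ∧ ¬ p ∣ H.index ∧ ∃ n, (U.subgroupOf H).index = p ^ n := by
  have : Finite (G ⧸ U) := Subgroup.finite_quotient_of_finiteIndex
  obtain ⟨P⟩ : Nonempty (Sylow p (G ⧸ U)) := inferInstance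
  have hidx : ((P : Subgroup (G ⧸ U)).comap (QuotientGroup.mk' U)).index
      = (P : Subgroup (G ⧸ U)).index :=
    Subgroup.index_comap_of_surjective _ (QuotientGroup.mk'_surjective U)
  have hle : U ≤ (P : Subgroup (G ⧸ U)).comap (QuotientGroup.mk' U) := by
    intro u hu
    rw [Subgroup.mem_comap, show QuotientGroup.mk' U u = 1 from (QuotientGroup.eq_one_iff u).2 hu]
    exact one_mem _
  refine ⟨_, hle, ?_, ?_⟩
  · rw [hidx]
    exact P.not_dvd_index
  · obtain ⟨n, hn⟩ := IsPGroup.iff_card.1 P.isPGroup'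
    refine ⟨n, ?_⟩
    have h1 := Subgroup.relIndex_mul_index hle
    rw [hidx, Subgroup.index_eq_card U, ← (P : Subgroup (G ⧸ U)).card_mul_index, hn] at h1
    exact Nat.eq_of_mul_eq_mul_right
      (Nat.pos_of_ne_zero (Subgroup.FiniteIndex.index_ne_zero)) h1

end Fermat.Agent.CFT.Global
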