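import Fermat.Agent.CFT.Global.GC3.HNTSpec
import Fermat.Agent.CFT.Global.GC3.HNT.Data

/-!
# CFT / Global / GC3-HNT : the Hasse norm theorem in `ℚbar`-language from GN5 `hasse_norm`

`F := fixedField V` (finite: `V ⊇ Fix E`; `V` is open hence closed, so `V = Fix F`),
`K := ↥F`, `φ := F.val`, `y := B ^ p ∈ F`, not a `p`-th power in `F` (`σ B = ζ B ≠ B`).
`exists_isKummer` gives an abstract `M = K(B')`, `τ'`; `ψ : M →+* ℚbar` over `φ` (`IsAlgClosed.lift`)
(`HNT/Model.lean`).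
`S₁ := {v : Pl K | v above some q ∈ S}`, `S₀ := S₁ ∪ supp y`.
`LN v a := IsLocNorm p V ζ B A_v (φ a)` for `v ∈ S₁` (`A_v` a chosen place of `ℚbar` over `v`),
`LN v a := NonSplit M v → p ∣ ord v a` on `supp y \ S₁` (`HNT/LocNorm.lean`, `HNT/Data.lean`).
-/

set_option autoImplicit false
set_option linter.unusedSectionVars false
set_option linter.style.haveILetI false

namespace Fermat.Agent.CFT.Global

open Fermat.Agent.CFT Fermat.Agent.S14 IsDedekindDomain NumberField

namespace HNT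

variable {p : ℕ} [Fact p.Prime] {V : Subgroup GQ} {ζ B : Qb} {K M : Type} [Field K] [NumberField K]
  [Field M] [NumberField M] [Algebra K M] {φ : K →+* Qb} {ψ : M →+* Qb} {ζK y : K} {B' : M}
  {τ' : M ≃ₐ[K] M}

open Classical in
theorem main (hp2 : p ≠ 2) (S : Finset Nat.Primes) (hpS : ∃ q ∈ S, (q : ℕ) = p)
    (hl2 : LocalNonNorm p) (hm : IsModel p V ζ B φ ψ ζK y B' τ') (h : Ctx p V ζ B)
    (hlev : ∃ U ∈ levAll.carrier, U ≤ V)
    (hBval : ∀ q : Nat.Primes, q ∉ S → ∀ A : ValuationSubring Qb, A.LiesOverPrime (q : ℕ) →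
      ∃ n : ℤ, A.valuation B = A.valuation ((q : ℕ) : Qb) ^ n)
    {a : K} (ha0 : a ≠ 0)
    (hloc : ∀ q ∈ S, ∀ A : ValuationSubring Qb, A.LiesOverPrime (q : ℕ) →
      IsLocNorm p V ζ B A (φ a))
    (hout : ∀ q : Nat.Primes, q ∉ S → ∀ A : ValuationSubring Qb, A.LiesOverPrime (q : ℕ) →
      (∃ τ ∈ A.decompositionSubgroup ℚ, τ ∈ V ∧ τ B ≠ B) →
        ∃ n : ℤ, A.valuation (φ a) = A.valuation ((q : ℕ) : Qb) ^ ((p : ℤ) * n)) :
    ∃ z : M, Algebra.norm K z = a := by
  have hp : p.Prime := Fact.out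
  have hK := hm.kummer
  have hy0 : y ≠ 0 := hK.y_ne
  choose ℓ A hℓ hA hv using Bridge.exists_place_of_heightOne φ
  have habove : ∀ v : Pl K, Above (ℓ v) v := by
    intro v
    unfold Above
    rw [hv v]
    exact Bridge.natCast_mem_primeBelow φ (hA v)
  let S₁ : Finset (Pl K) := S.biUnion fun q => (finite_above (F := K) (q : ℕ) q.2.ne_zero).toFinset
  have hS₁ : ∀ v : Pl K, v ∈ S₁ ↔ (⟨ℓ v, hℓ v⟩ : Nat.Primes) ∈ S := by
    intro v
    simp only [S₁, Finset.mem_biUnion, Set.Finite.mem_toFinset, Set.mem_ofPred_eq]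
    constructor
    · rintro ⟨q, hq, hqv⟩
      have : (q : ℕ) = ℓ v := above_unique q.2 (hℓ v) hqv (habove v)
      have e : q = ⟨ℓ v, hℓ v⟩ := Subtype.ext this
      rwa [← e]
    · intro hq
      exact ⟨_, hq, habove v⟩
  have hpS₁ : ∀ v : Pl K, Above p v → v ∈ S₁ := by
    intro v hpv
    obtain ⟨q, hq, hqp⟩ := hpS
    simp only [S₁, Finset.mem_biUnion, Set.Finite.mem_toFinset, Set.mem_ofPred_eq]
    exact ⟨q, hq, by rw [hqp]; exact hpv⟩
  -- outside `S₁` the extension is unramified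
  have hyord : ∀ v : Pl K, v ∉ S₁ → (p : ℤ) ∣ ord v y := by
    intro v hvS
    obtain ⟨n, hn⟩ := hBval ⟨ℓ v, hℓ v⟩ (fun hq => hvS ((hS₁ v).2 hq)) (A v) (hA v)
    refine dvd_ord_of_valuation (n := n) (hℓ v) (hA v) (hv v) hy0 ?_
    rw [hm.map_y, map_pow, hn, ← zpow_natCast, ← zpow_mul, mul_comm]
  have haord : ∀ v : Pl K, v ∉ S₁ → NonSplit M v → (p : ℤ) ∣ ord v a := by
    intro v hvS hns
    obtain ⟨n, hn⟩ := hout ⟨ℓ v, hℓ v⟩ (fun hq => hvS ((hS₁ v).2 hq)) (A v) (hA v)
      (exists_of_nonSplit hm (hℓ v) (hA v) (hv v) hns)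
    exact dvd_ord_of_valuation (hℓ v) (hA v) (hv v) ha0 hn
  let S₀ : Finset (Pl K) := S₁ ∪ (finite_support_ord hy0).toFinset
  let N : ℕ := S₀.sup fun v => p * dz ζK v + 1
  have hN : ∀ v ∈ S₀, p * dz ζK v + 1 ≤ N := fun v hvS =>
    Finset.le_sup (f := fun v => p * dz ζK v + 1) hvS
  let LN : Pl K → K → Prop := fun v x =>
    if v ∈ S₁ then IsLocNorm p V ζ B (A v) (φ x) else (NonSplit M v → (p : ℤ) ∣ ord v x)
  have hLN : LocNormData p M S₀ N LN :=
    { mul := by
        intro v _ x x' hx hx' hL hL'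
        by_cases hvS : v ∈ S₁
        · simp only [LN, hvS, if_true] at hL hL' ⊢
          rw [map_mul]
          exact isLocNorm_mul h hL hL'
        · simp only [LN, hvS, if_false] at hL hL' ⊢
          intro hns
          rw [ord_mul v hx hx']
          exact dvd_add (hL hns) (hL' hns)
      inv := by
        intro v _ x hx hL
        by_cases hvS : v ∈ S₁
        · simp only [LN, hvS, if_true] at hL ⊢
          rw [map_inv₀]
          exact isLocNorm_inv h hL
        · simp only [LN, hvS, if_false] at hL ⊢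
          intro hns
          rw [ord_inv]
          exact (dvd_neg).2 (hL hns)
      of_locPow := by
        intro v hv₀ x hx hloc
        by_cases hvS : v ∈ S₁
        · simp only [LN, hvS, if_true]
          exact isLocNorm_of_locPow hm h (hℓ v) (hA v) (hv v) hx
            (locPow_all hK.prim v (hloc.mono (hN v hv₀)))
        · simp only [LN, hvS, if_false]
          intro _
          exact hloc.dvd_ord (le_trans (Nat.le_add_left _ _) (hN v hv₀))
      of_norm := by
        intro v _ z hz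
        by_cases hvS : v ∈ S₁
        · simp only [LN, hvS, if_true]
          exact isLocNorm_norm hm h z
        · simp only [LN, hvS, if_false]
          intro hns
          exact dvd_ord_norm hK (fun hpv => hvS (hpS₁ v hpv)) (hyord v hvS) hns hz
      exists_not := by
        intro v _ hns
        by_cases hvS : v ∈ S₁
        · simp only [LN, hvS, if_true]
          exact exists_not_isLocNorm hl2 hm h hlev (hℓ v) (hA v) (hv v) hns
        · simp only [LN, hvS, if_false]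
          obtain ⟨x, hx0, hx⟩ := exists_ord_eq ({v} : Finset (Pl K)) (fun _ => 1)
          refine ⟨x, hx0, fun hd => ?_⟩
          have h1 := hd hns
          rw [hx v (Finset.mem_singleton_self v)] at h1
          have h2 := Int.natAbs_dvd_natAbs.2 h1
          simp only [Int.natAbs_natCast, Int.natAbs_one, Nat.dvd_one] at h2
          exact hp.one_lt.ne' h2 }
  refine hasse_norm hK hp2 S₀ (fun v hpv => Finset.mem_union_left _ (hpS₁ v hpv)) ⟨hy0, ?_⟩ N LN hLN
    a ha0 ?_ ?_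
  · intro v hvS
    by_contra hne
    exact hvS (Finset.mem_union_right _ ((Set.Finite.mem_toFinset _).2 hne))
  · intro v _
    by_cases hvS : v ∈ S₁
    · simp only [LN, hvS, if_true]
      exact hloc _ ((hS₁ v).1 hvS) (A v) (hA v)
    · simp only [LN, hvS, if_false]
      exact haord v hvS
  · intro v hvS
    exact haord v fun hvS₁ => hvS (Finset.mem_union_left _ hvS₁)

end HNT

theorem hnt_Qb {p : ℕ} [Fact p.Prime] (hp2 : p ≠ 2) (S : Finset Nat.Primes)
    (hpS : ∃ q ∈ S, (q : ℕ) = p) (hl2 : LocalNonNorm p) : HNTStatement p S := by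
  intro V ζ B a σ hV hζ hVζ hB0 hVB hBS hσ hσB ha0 haV hloc hout
  have h : HNT.Ctx p V ζ B := ⟨hζ, hVζ, hB0, hVB⟩
  have hlev : ∃ U ∈ levAll.carrier, U ≤ V := by
    obtain ⟨U, hU, hUV⟩ := hV
    exact ⟨U, levS_le_levAll S hU, hUV⟩
  obtain ⟨_, ⟨E₁, hE₁, -, rfl⟩, hE₁V⟩ := hV
  obtain ⟨_, ⟨E₂, hE₂, -, rfl⟩, hE₂B⟩ := hBS
  haveI := hE₁.1
  have := isGalois_Qb
  have hBE₂ : B ∈ E₂ := by
    rw [← InfiniteGalois.fixedField_fixingSubgroup (k := ℚ) (K := Qb) E₂,
      IntermediateField.mem_fixedField_iff]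
    exact hE₂B
  obtain ⟨K, _, _, φ, hφ, -⟩ := HNT.exists_numberField_of_le E₁ hE₁V
  obtain ⟨ζK, y, M, _, _, _, B', τ', ψ, hm⟩ := HNT.exists_model φ hφ h hσ hσB
  obtain ⟨a', rfl⟩ := Bridge.exists_of_fixed φ (y := a) (by rw [hφ]; exact haV)
  have ha'0 : a' ≠ 0 := fun h0 => ha0 (by rw [h0, map_zero])
  obtain ⟨z, hz⟩ := HNT.main hp2 S hpS hl2 hm h hlev
    (fun q hq A hA => Bridge.exists_zpow_of_isUnramifiedOutside hE₂ hBE₂ hB0 hq hA) ha'0 hloc hout
  exact ⟨ψ z, fun g hg hgB => hm.fixed hg hgB z, by rw [← hz]; exact hm.map_norm h hσ hσB z⟩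

end Fermat.Agent.CFT.Global
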