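import Fermat.Agent.CFT.Global.GC3.Cyclic
import Fermat.Agent.CFT.Global.GC3.GroupTh
import Fermat.Agent.CFT.Coh.Cores2

/-!
# CFT / Global / GC3 : the Hasse principle for `H^2(G_S(F), μ_p) → H^2(G_S(F), ℚ_Sˣ)`

`hasse_S` : an `S`-level 2-cocycle with values in `ℤ/p ≅ μ_p` which is locally trivial (in `ℚbarˣ`)
at all places above `S` becomes a coboundary of an `S`-level cochain with values in `ℚ_Sˣ`.
-/

set_option autoImplicit false

namespace Fermat.Agent.CFT.Global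

open Fermat.Agent.CFT Finset

variable {p : ℕ} [Fact p.Prime] {S : Finset Nat.Primes}

theorem LocTrivU.sub {G : Type} [Group G] {r : G →* GQ} {y : G × G → VS S} (h : LocTrivU S r y)
    (K : Subgroup G) :
    LocTrivU S (r.comp K.subtype) (fun g : ↥K × ↥K => y (K.subtype g.1, K.subtype g.2)) :=
  fun q hq A hA H _ j hj => h q hq A hA H (K.subtype.comp j) hj

theorem rhoS_mu {G : Type} [Group G] {ζ : Qb} {z : VS S} (hz : toQb (inclS S z) = ζ)
    {r : G →* GQ} (hr : Arith S ζ r) {mu : ZMod p →+ VS S} (hmu : ∀ i : ZMod p, mu i = i.val • z)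
    (g : G) (i : ZMod p) : (rhoS S).comp r g (mu i) = mu i := by
  rw [hmu, map_nsmul, rhoS_z hz hr]

theorem mu_comp_mem_Z2 {G : Type} [Group G] {ζ : Qb} {z : VS S} (hz : toQb (inclS S z) = ζ)
    {r : G →* GQ} (hr : Arith S ζ r) {mu : ZMod p →+ VS S} (hmu : ∀ i : ZMod p, mu i = i.val • z)
    {x : G × G → ZMod p}
    (hx : x ∈ Z2 ((levS S).comap r) (1 : Representation (ZMod p) G (ZMod p))) :
    (fun g => mu (x g)) ∈ Z2 ((levS S).comap r) ((rhoS S).comp r) :=
  add_comp_mem_Z2 mu (fun g v => (rhoS_mu hz hr hmu g v).symm) hx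

/-- the `p`-group case, by induction on the order -/
theorem hasse_pgroup (hHNT : HNTStatement p S) {ζ : Qb} (hζ : IsPrimitiveRoot ζ p)
    {z : VS S} (hz : toQb (inclS S z) = ζ) {mu : ZMod p →+ VS S}
    (hmu : ∀ i : ZMod p, mu i = i.val • z) (n : ℕ) :
    ∀ (G : Type) [Group G] (r : G →* GQ), Arith S ζ r → ∀ (x : G × G → ZMod p) (U : Subgroup G),
      U ∈ ((levS S).comap r).carrier → U.index = p ^ n →
      (∀ g₁ g₂ s₁ s₂, s₁ ∈ U → s₂ ∈ U → x (g₁ * s₁, g₂ * s₂) = x (g₁, g₂)) →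
      d23 (1 : Representation (ZMod p) G (ZMod p)) x = 0 →
      LocTrivU S r (fun g => mu (x g)) →
      (fun g => mu (x g)) ∈ B2 ((levS S).comap r) ((rhoS S).comp r) := by
  induction n with
  | zero =>
    intro G _ r hr x U hU hidx hxU _ _
    rw [pow_zero, Subgroup.index_eq_one] at hidx
    subst hidx
    have hconst : ∀ g, x g = x (1, 1) := by
      rintro ⟨g, h⟩
      have := hxU 1 1 g h (Subgroup.mem_top _) (Subgroup.mem_top _)
      rwa [one_mul, one_mul] at this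
    refine ⟨fun _ => mu (x (1, 1)), Levels.LC1_const _ _, ?_⟩
    funext g
    simp only [d12_apply, rhoS_mu hz hr hmu, hconst g]
    abel
  | succ n ih =>
    intro G _ r hr x U hU hidx hxU hx hloc
    have hUn := ((levS S).comap r).normal U hU
    obtain ⟨χ, hsurj, hle, hidx'⟩ := exists_chi_of_index U hidx
    obtain ⟨σ, hσ⟩ := hsurj (Multiplicative.ofAdd 1)
    have hχ : ∃ U ∈ ((levS S).comap r).carrier, U ≤ χ.ker := ⟨U, hU, hle⟩
    have hxZ : x ∈ Z2 ((levS S).comap r) (1 : Representation (ZMod p) G (ZMod p)) :=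
      ⟨LinearMap.mem_ker.2 hx, U, hU, hxU⟩
    have hyZ := mu_comp_mem_Z2 hz hr hmu hxZ
    -- induction hypothesis on `ker χ`
    have hUK : U.subgroupOf χ.ker ∈ ((levS S).comap (r.comp χ.ker.subtype)).carrier := by
      obtain ⟨U₀, hU₀, rfl⟩ := hU
      exact ⟨U₀, hU₀, rfl⟩
    have hres := ih ↥χ.ker (r.comp χ.ker.subtype) (hr.sub χ.ker hχ)
      (fun g => x (χ.ker.subtype g.1, χ.ker.subtype g.2)) (U.subgroupOf χ.ker) hUK hidx'
      (fun g₁ g₂ s₁ s₂ h₁ h₂ => hxU g₁ g₂ s₁ s₂ h₁ h₂)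
      (by
        funext ⟨g₁, g₂, g₃⟩
        exact congrFun hx (χ.ker.subtype g₁, χ.ker.subtype g₂, χ.ker.subtype g₃))
      (hloc.sub χ.ker)
    have h90 : Z1 (((levS S).comap r).sub χ.ker) (resRep ((rhoS S).comp r) χ.ker)
        ≤ B1 (resRep ((rhoS S).comp r) χ.ker) := by
      rw [sub_comap_eq]
      exact h90_S S (r.comp χ.ker.subtype) (hr.sub χ.ker hχ).isOpen
    have hres' : (fun g => mu (x g)) ∘ Prod.map χ.ker.subtype χ.ker.subtype ∈
        B2 (((levS S).comap r).sub χ.ker) (resRep ((rhoS S).comp r) χ.ker) := by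
      rw [sub_comap_eq]
      exact hres
    obtain ⟨a, ha, hxa⟩ := exists_cyc_of_res_mem_B2 hσ hχ (isSmooth_rhoS_comp r) h90 hyZ hres'
    have hcyc := cyc_mem_B2_of_hnt hHNT hζ hz hr hχ hσ mu x ha hxa hloc
    have := Submodule.add_mem _ hxa hcyc
    rwa [sub_add_cancel] at this

/-- **GC3, the Hasse principle** (abstract form, `r : G →* GQ` with open image in `G_S`). -/
theorem hasse_S (hHNT : HNTStatement p S) {ζ : Qb} (hζ : IsPrimitiveRoot ζ p)
    {z : VS S} (hz : toQb (inclS S z) = ζ) {mu : ZMod p →+ VS S}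
    (hmu : ∀ i : ZMod p, mu i = i.val • z) {G : Type} [Group G] {r : G →* GQ}
    (hr : Arith S ζ r) {x : G × G → ZMod p}
    (hx : x ∈ Z2 ((levS S).comap r) (1 : Representation (ZMod p) G (ZMod p)))
    (hloc : LocTrivU S r (fun g => mu (x g))) :
    (fun g => mu (x g)) ∈ B2 ((levS S).comap r) ((rhoS S).comp r) := by
  have hp : p.Prime := Fact.out
  obtain ⟨hxk, U, hU, hxU⟩ := hx
  have hUn := ((levS S).comap r).normal U hU
  have hUf := ((levS S).comap r).finiteIndex U hU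
  obtain ⟨H, hUH, hpH, n, hn⟩ := exists_sylow_of_finiteIndex p U
  have hH : ∃ U ∈ ((levS S).comap r).carrier, U ≤ H := ⟨U, hU, hUH⟩
  have hUK : U.subgroupOf H ∈ ((levS S).comap (r.comp H.subtype)).carrier := by
    obtain ⟨U₀, hU₀, rfl⟩ := hU
    exact ⟨U₀, hU₀, rfl⟩
  have hres := hasse_pgroup hHNT hζ hz hmu n ↥H (r.comp H.subtype) (hr.sub H hH)
    (fun g => x (H.subtype g.1, H.subtype g.2)) (U.subgroupOf H) hUK hn
    (fun g₁ g₂ s₁ s₂ h₁ h₂ => hxU g₁ g₂ s₁ s₂ h₁ h₂)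
    (by
      funext ⟨g₁, g₂, g₃⟩
      exact congrFun (LinearMap.mem_ker.1 hxk) (H.subtype g₁, H.subtype g₂, H.subtype g₃))
    (hloc.sub H)
  have hres' : (fun g => mu (x g)) ∘ Prod.map H.subtype H.subtype ∈
      B2 (((levS S).comap r).sub H) (resRep ((rhoS S).comp r) H) := by
    rw [sub_comap_eq]
    exact hres
  refine mem_B2_of_coprime_index hH (isSmooth_rhoS_comp r)
    (mu_comp_mem_Z2 hz hr hmu ⟨hxk, U, hU, hxU⟩) hres' (n := p) ?_
    ((Nat.coprime_comm.1 ((Nat.Prime.coprime_iff_not_dvd hp).2 hpH)))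
  have h0 : p • (fun g => mu (x g)) = (0 : G × G → VS S) := by
    funext g
    rw [Pi.smul_apply, ← map_nsmul, nsmul_eq_mul, ZMod.natCast_self, zero_mul, map_zero]
    rfl
  rw [h0]
  exact Submodule.zero_mem _

end Fermat.Agent.CFT.Global
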