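import Fermat.Agent.CFT.Global.GC3.Final
import Fermat.Agent.CFT.Global.GC3.HNT
import Fermat.Agent.CFT.LS.L2

/-!
# CFT / Global / GC3 : `hasseS : HasseS p S`
-/

set_option autoImplicit false

namespace Fermat.Agent.CFT.Global

variable {p : ℕ} [Fact p.Prime] {S : Finset Nat.Primes}

/-- **GC3**: the Hasse principle. -/
theorem hasseS (hp2 : p ≠ 2) (hpS : ∃ q ∈ S, (q : ℕ) = p) : HasseS p S :=
  hasseS_of_hnt (hnt_Qb hp2 S hpS (LS.localNonNorm p))

end Fermat.Agent.CFT.Global
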