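import Fermat.Agent.CFT.Global.GC3.Smooth
import Fermat.Agent.CFT.K.Datum
import Fermat.Agent.CFT.Coh.H90

/-!
# CFT / Global / GC3 : the modules `ℚbarˣ`, `ℚ_Sˣ`, Hilbert 90 for groups `r : G →* GQ`
-/

set_option autoImplicit false

namespace Fermat.Agent.CFT.Global

open Fermat.Agent.CFT

/-- `GQ` acting on `ℚbarˣ` (additively written) -/
noncomputable abbrev rhoQ : Representation ℤ GQ (Additive Qbˣ) := unitsRep GQ Qb

/-- `ℚ_Sˣ` (additively written): the units fixed by some `S`-level -/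
noncomputable abbrev VS (S : Finset Nat.Primes) : Type := ↥(smoothSub (levS S) rhoQ)

/-- `GQ` acting on `ℚ_Sˣ` -/
noncomputable abbrev rhoS (S : Finset Nat.Primes) : Representation ℤ GQ (VS S) :=
  smoothRep (levS S) rhoQ

/-- the inclusion `ℚ_Sˣ → ℚbarˣ` -/
noncomputable abbrev inclS (S : Finset Nat.Primes) : VS S →ₗ[ℤ] Additive Qbˣ :=
  (smoothSub (levS S) rhoQ).subtype

theorem inclS_rhoS (S : Finset Nat.Primes) (g : GQ) (v : VS S) :
    inclS S (rhoS S g v) = rhoQ g (inclS S v) := rfl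

/-- the underlying element of `ℚbar` -/
noncomputable def toQb (u : Additive Qbˣ) : Qb := ((Additive.toMul u : Qbˣ) : Qb)

@[simp] theorem toQb_add (u v : Additive Qbˣ) : toQb (u + v) = toQb u * toQb v := rfl
@[simp] theorem toQb_zero : toQb 0 = 1 := rfl
theorem toQb_ne_zero (u : Additive Qbˣ) : toQb u ≠ 0 := (Additive.toMul u).ne_zero
@[simp] theorem toQb_rhoQ (g : GQ) (u : Additive Qbˣ) : toQb (rhoQ g u) = g (toQb u) := rfl
theorem toQb_injective : Function.Injective toQb :=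
  fun _ _ h => Additive.toMul.injective (Units.ext h)
@[simp] theorem toQb_neg (u : Additive Qbˣ) : toQb (-u) = (toQb u)⁻¹ := by
  change (((Additive.toMul u)⁻¹ : Qbˣ) : Qb) = _
  rw [Units.val_inv_eq_inv_val]; rfl
@[simp] theorem toQb_sub (u v : Additive Qbˣ) : toQb (u - v) = toQb u / toQb v := by
  rw [sub_eq_add_neg, toQb_add, toQb_neg, div_eq_mul_inv]
@[simp] theorem toQb_nsmul (n : ℕ) (u : Additive Qbˣ) : toQb (n • u) = toQb u ^ n := rfl
theorem toQb_sum {ι : Type*} (s : Finset ι) (f : ι → Additive Qbˣ) :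
    toQb (∑ i ∈ s, f i) = ∏ i ∈ s, toQb (f i) := by
  classical
  induction s using Finset.induction_on with
  | empty => simp
  | insert a s ha ih => rw [Finset.sum_insert ha, Finset.prod_insert ha, toQb_add, ih]

/-- the unit attached to a nonzero element -/
noncomputable def ofQb (x : Qb) (hx : x ≠ 0) : Additive Qbˣ := Additive.ofMul (Units.mk0 x hx)

@[simp] theorem toQb_ofQb (x : Qb) (hx : x ≠ 0) : toQb (ofQb x hx) = x := rfl

theorem mem_VS_iff {S : Finset Nat.Primes} {u : Additive Qbˣ} :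
    u ∈ smoothSub (levS S) rhoQ ↔ ∃ U ∈ (levS S).carrier, ∀ s ∈ U, s (toQb u) = toQb u := by
  constructor
  · rintro ⟨U, hU, h⟩
    exact ⟨U, hU, fun s hs => by rw [← toQb_rhoQ, h s hs]⟩
  · rintro ⟨U, hU, h⟩
    exact ⟨U, hU, fun s hs => toQb_injective (by rw [toQb_rhoQ, h s hs])⟩

section H90

variable {G : Type} [Group G]

theorem isGaloisClosed_comap_levAll (r : G →* GQ) :
    letI : MulSemiringAction G Qb := MulSemiringAction.compHom Qb r
    (levAll.comap r).IsGaloisClosed Qb := by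
  letI : MulSemiringAction G Qb := MulSemiringAction.compHom Qb r
  rintro _ ⟨_, ⟨F, _, _, rfl⟩, rfl⟩ g hg
  rw [Subgroup.mem_comap, IntermediateField.mem_fixingSubgroup_iff]
  intro x hx
  refine hg x (fun s hs => ?_)
  exact (IntermediateField.mem_fixingSubgroup_iff F (r s)).1 hs x hx

theorem isGaloisClosed_comap_levS (S : Finset Nat.Primes) (r : G →* GQ) :
    letI : MulSemiringAction G Qb := MulSemiringAction.compHom Qb r
    ((levS S).comap r).IsGaloisClosed Qb := by
  letI : MulSemiringAction G Qb := MulSemiringAction.compHom Qb r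
  rintro _ ⟨_, ⟨F, _, _, rfl⟩, rfl⟩ g hg
  rw [Subgroup.mem_comap, IntermediateField.mem_fixingSubgroup_iff]
  intro x hx
  refine hg x (fun s hs => ?_)
  exact (IntermediateField.mem_fixingSubgroup_iff F (r s)).1 hs x hx

/-- Hilbert 90 for `ℚbarˣ` and all levels, for any `r : G →* GQ` -/
theorem h90_all (r : G →* GQ) : Z1 (levAll.comap r) (rhoQ.comp r) ≤ B1 (rhoQ.comp r) := by
  letI : MulSemiringAction G Qb := MulSemiringAction.compHom Qb r
  exact hilbert90_of_exp (Ω := Qb) (isGaloisClosed_comap_levAll r) (rhoQ.comp r) toQb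
    (fun _ _ => rfl) toQb_ne_zero (fun _ _ => rfl) toQb_injective
    (fun _ _ b hb _ => ⟨ofQb b hb, rfl⟩)

/-- Hilbert 90 for `ℚ_Sˣ` and `S`-levels, for `r : G →* GQ` with open image -/
theorem h90_S (S : Finset Nat.Primes) (r : G →* GQ)
    (hr : ∃ U ∈ (levS S).carrier, U ≤ r.range) :
    Z1 ((levS S).comap r) ((rhoS S).comp r) ≤ B1 ((rhoS S).comp r) := by
  letI : MulSemiringAction G Qb := MulSemiringAction.compHom Qb r
  refine hilbert90_of_exp (Ω := Qb) (isGaloisClosed_comap_levS S r) ((rhoS S).comp r)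
    (fun v => toQb (inclS S v)) (fun _ _ => rfl) (fun _ => toQb_ne_zero _) (fun _ _ => rfl)
    (fun _ _ h => Subtype.ext (toQb_injective h)) ?_
  rintro _ ⟨U, hU, rfl⟩ b hb hfix
  obtain ⟨U₁, hU₁, hle⟩ := hr
  obtain ⟨W, hW, h1, h2⟩ := (levS S).directed U hU U₁ hU₁
  refine ⟨⟨ofQb b hb, mem_VS_iff.2 ⟨W, hW, fun s hs => ?_⟩⟩, rfl⟩
  obtain ⟨g, rfl⟩ := hle (h2 hs)
  exact hfix g (h1 hs)

end H90

end Fermat.Agent.CFT.Global
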