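import Fermat.Agent.CFT.Coh.CyclicKer
import Fermat.Agent.CFT.F.Lev

/-!
# CFT / Global / GC3 : generic preliminaries

* `smoothSub 𝒰 ρ`, `smoothRep 𝒰 ρ` : the submodule of smooth vectors and the representation on it;
* `Levels` extensionality, `sub` of a `comap`;
* additive (ring-changing) functoriality of `Z2`, `B2`.
-/

set_option autoImplicit false

namespace Fermat.Agent.CFT.Global

open Fermat.Agent.CFT

section Lev

variable {G H Γ : Type} [Group G] [Group H] [Group Γ]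

theorem levels_ext {𝒰 𝒱 : Levels G} (h : 𝒰.carrier = 𝒱.carrier) : 𝒰 = 𝒱 := by
  cases 𝒰; cases 𝒱; simp_all

theorem sub_comap_eq (𝒰 : Levels Γ) (r : G →* Γ) (K : Subgroup G) :
    (𝒰.comap r).sub K = 𝒰.comap (r.comp K.subtype) := by
  apply levels_ext
  ext W
  constructor
  · rintro ⟨_, ⟨U, hU, rfl⟩, rfl⟩
    exact ⟨U, hU, rfl⟩
  · rintro ⟨U, hU, rfl⟩
    exact ⟨_, ⟨U, hU, rfl⟩, rfl⟩

theorem comap_comap_eq (𝒰 : Levels Γ) (r : G →* Γ) (j : H →* G) :
    (𝒰.comap r).comap j = 𝒰.comap (r.comp j) := by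
  apply levels_ext
  ext W
  constructor
  · rintro ⟨_, ⟨U, hU, rfl⟩, rfl⟩
    exact ⟨U, hU, rfl⟩
  · rintro ⟨U, hU, rfl⟩
    exact ⟨_, ⟨U, hU, rfl⟩, rfl⟩

end Lev

section Smooth

variable {k : Type} [CommRing k] {G : Type} [Group G] {V : Type} [AddCommGroup V] [Module k V]

/-- the submodule of smooth vectors -/
def smoothSub (𝒰 : Levels G) (ρ : Representation k G V) : Submodule k V where
  carrier := {v | ∃ U ∈ 𝒰.carrier, ∀ s ∈ U, ρ s v = v}
  add_mem' := by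
    rintro a b ⟨U, hU, ha⟩ ⟨U', hU', hb⟩
    obtain ⟨W, hW, h1, h2⟩ := 𝒰.directed U hU U' hU'
    exact ⟨W, hW, fun s hs => by rw [map_add, ha s (h1 hs), hb s (h2 hs)]⟩
  zero_mem' := by
    obtain ⟨U, hU⟩ := 𝒰.nonempty
    exact ⟨U, hU, fun s _ => map_zero _⟩
  smul_mem' := by
    rintro c a ⟨U, hU, ha⟩
    exact ⟨U, hU, fun s hs => by rw [map_smul, ha s hs]⟩

theorem mem_smoothSub {𝒰 : Levels G} {ρ : Representation k G V} {v : V} :
    v ∈ smoothSub 𝒰 ρ ↔ ∃ U ∈ 𝒰.carrier, ∀ s ∈ U, ρ s v = v := Iff.rfl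

theorem rho_mem_smoothSub {𝒰 : Levels G} {ρ : Representation k G V} (g : G) {v : V}
    (hv : v ∈ smoothSub 𝒰 ρ) : ρ g v ∈ smoothSub 𝒰 ρ := by
  obtain ⟨U, hU, h⟩ := hv
  refine ⟨U, hU, fun s hs => ?_⟩
  have hn := 𝒰.normal U hU
  have h1 : g⁻¹ * s * g ∈ U := by
    have := hn.conj_mem s hs g⁻¹
    simpa using this
  have h2 : s * g = g * (g⁻¹ * s * g) := by group
  rw [← Module.End.mul_apply, ← map_mul, h2, map_mul, Module.End.mul_apply, h _ h1]

/-- the representation on the smooth vectors -/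
def smoothRep (𝒰 : Levels G) (ρ : Representation k G V) :
    Representation k G ↥(smoothSub 𝒰 ρ) where
  toFun g := (ρ g).restrict (fun _ hv => rho_mem_smoothSub g hv)
  map_one' := by
    ext v
    simp
  map_mul' g h := by
    ext v
    simp

@[simp] theorem smoothRep_coe (𝒰 : Levels G) (ρ : Representation k G V) (g : G)
    (v : ↥(smoothSub 𝒰 ρ)) : ((smoothRep 𝒰 ρ g v : ↥(smoothSub 𝒰 ρ)) : V) = ρ g (v : V) := rfl

theorem isSmooth_smoothRep (𝒰 : Levels G) (ρ : Representation k G V) :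
    IsSmooth 𝒰 (smoothRep 𝒰 ρ) := by
  rintro ⟨v, U, hU, h⟩
  exact ⟨U, hU, fun s hs => Subtype.ext (h s hs)⟩

end Smooth

section Add

variable {k k' : Type} [CommRing k] [CommRing k'] {G : Type} [Group G]
  {V W : Type} [AddCommGroup V] [Module k V] [AddCommGroup W] [Module k' W]
  {𝒰 : Levels G} {ρ : Representation k G V} {σ : Representation k' G W}

theorem add_comp_mem_Z2 (f : V →+ W) (hf : ∀ g v, f (ρ g v) = σ g (f v)) {a : G × G → V}
    (ha : a ∈ Z2 𝒰 ρ) : f ∘ a ∈ Z2 𝒰 σ := by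
  refine ⟨LinearMap.mem_ker.2 ?_, ha.2.comp f⟩
  funext g
  have := congrFun (LinearMap.mem_ker.1 ha.1) g
  simp only [d23_apply, Pi.zero_apply, Function.comp_apply] at this ⊢
  rw [← hf, ← map_sub, ← map_add, ← map_sub, this, map_zero]

theorem add_comp_mem_B2 (f : V →+ W) (hf : ∀ g v, f (ρ g v) = σ g (f v)) {a : G × G → V}
    (ha : a ∈ B2 𝒰 ρ) : f ∘ a ∈ B2 𝒰 σ := by
  obtain ⟨x, hx, rfl⟩ := ha
  refine ⟨f ∘ x, hx.comp f, ?_⟩
  funext g
  simp only [d12_apply, Function.comp_apply]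
  rw [← hf, ← map_sub, ← map_add]

end Add

end Fermat.Agent.CFT.Global
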