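import Fermat.Agent.CFT.Global.GC3.Setup
import Fermat.Agent.Common.PlaceBridgeKummer

/-!
# CFT / Global / GC3 : the valuation trick

If `μ ∘ x - cyc χ a = d φ` with `φ` an `S`-level cochain with values in `ℚ_Sˣ`, then for every place
`A` outside `S` which does not split (`χ` non trivial on the decomposition group) the valuation of `a`
is a `p`-th power of the valuation of `q`.
-/

set_option autoImplicit false

namespace Fermat.Agent.CFT.Global

open Fermat.Agent.CFT Finset

section Abstract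

variable {G : Type} [Group G] {p : ℕ} [Fact p.Prime]

theorem sum_carry_pow (χ : G →* Multiplicative (ZMod p)) (τ : G) :
    ∑ j ∈ range p, carry χ (τ ^ j) τ = chiVal χ τ := by
  have hp : p.Prime := Fact.out
  have hker : τ ^ p ∈ χ.ker := by
    rw [MonoidHom.mem_ker, map_pow]
    apply Multiplicative.toAdd.injective
    rw [toAdd_pow, toAdd_one, nsmul_eq_mul, ZMod.natCast_self, zero_mul]
  have h1 : ∀ j, chiVal χ (τ ^ j) + chiVal χ τ = chiVal χ (τ ^ (j + 1)) + p * carry χ (τ ^ j) τ := by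
    intro j
    rw [pow_succ]
    exact chiVal_add χ _ _
  have h2 : ∑ j ∈ range p, (chiVal χ (τ ^ j) + chiVal χ τ)
      = ∑ j ∈ range p, (chiVal χ (τ ^ (j + 1)) + p * carry χ (τ ^ j) τ) :=
    sum_congr rfl fun j _ => h1 j
  rw [sum_add_distrib, sum_add_distrib, sum_const, card_range, ← mul_sum] at h2
  have h3 : ∑ j ∈ range p, chiVal χ (τ ^ (j + 1)) = ∑ j ∈ range p, chiVal χ (τ ^ j) := by
    have e1 := sum_range_succ (fun j => chiVal χ (τ ^ j)) p
    have e2 := sum_range_succ' (fun j => chiVal χ (τ ^ j)) p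
    simp only [chiVal_of_mem_ker χ hker, pow_zero, chiVal_of_mem_ker χ (one_mem _), add_zero] at e1 e2
    rw [← e2, e1]
  rw [h3, smul_eq_mul] at h2
  exact (Nat.eq_of_mul_eq_mul_left hp.pos (Nat.add_left_cancel h2)).symm

/-- the abstract valuation trick -/
theorem dvd_of_carry_coboundary (χ : G →* Multiplicative (ZMod p)) (D U : Subgroup G)
    (hU : U.index ≠ 0) (f : G → ℤ) (w : ℤ)
    (hf : ∀ g ∈ D, ∀ h ∈ D, f (g * h) = f g + f h + carry χ g h * w)
    (hfU : ∀ g s, s ∈ U → f (g * s) = f g) {τ : G} (hτD : τ ∈ D) (hτ : χ τ ≠ 1) :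
    (p : ℤ) ∣ w := by
  have hp : p.Prime := Fact.out
  have hf1 : f 1 = 0 := by
    have := hf 1 (one_mem _) 1 (one_mem _)
    rw [mul_one, carry_ker_left χ 1 (one_mem _)] at this
    simp at this
    exact this
  -- `f` vanishes on `D ∩ ker χ`
  have hker : ∀ κ ∈ D, κ ∈ χ.ker → f κ = 0 := by
    intro κ hκD hκ
    have hpow : ∀ m : ℕ, f (κ ^ m) = m * f κ := by
      intro m
      induction m with
      | zero => simp [hf1]
      | succ m ih =>
        rw [pow_succ, hf _ (pow_mem hκD m) _ hκD, ih, carry_ker_right χ _ hκ]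
        push_cast
        ring
    obtain ⟨m, hm, -, hmU⟩ := Subgroup.exists_pow_mem_of_index_ne_zero hU κ
    have h0 : f (κ ^ m) = 0 := by
      have := hfU 1 _ hmU
      rwa [one_mul, hf1] at this
    rw [hpow] at h0
    rcases mul_eq_zero.1 h0 with h | h
    · exact absurd (by exact_mod_cast h) hm.ne'
    · exact h
  have hpow : ∀ m : ℕ, f (τ ^ m) = m * f τ + (∑ j ∈ range m, carry χ (τ ^ j) τ : ℕ) * w := by
    intro m
    induction m with
    | zero => simp [hf1]
    | succ m ih =>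
      rw [pow_succ, hf _ (pow_mem hτD m) _ hτD, ih, sum_range_succ]
      push_cast
      ring
  have hτp : τ ^ p ∈ χ.ker := by
    rw [MonoidHom.mem_ker, map_pow]
    apply Multiplicative.toAdd.injective
    rw [toAdd_pow, toAdd_one, nsmul_eq_mul, ZMod.natCast_self, zero_mul]
  have h0 := hpow p
  rw [hker _ (pow_mem hτD p) hτp, sum_carry_pow] at h0
  have hdvd : (p : ℤ) ∣ (chiVal χ τ : ℤ) * w := ⟨- f τ, by linarith⟩
  have hc : ¬ (p : ℤ) ∣ (chiVal χ τ : ℤ) := by
    intro h
    have h1 : p ∣ chiVal χ τ := by exact_mod_cast h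
    have h2 : chiVal χ τ = 0 := Nat.eq_zero_of_dvd_of_lt h1 (chiVal_lt χ τ)
    apply hτ
    apply Multiplicative.toAdd.injective
    rw [toAdd_one]
    exact (ZMod.val_eq_zero _).1 h2
  exact ((Nat.prime_iff_prime_int.1 hp).dvd_or_dvd hdvd).resolve_left hc

end Abstract

section Val

variable {S : Finset Nat.Primes} {q : Nat.Primes} {A : ValuationSubring Qb}

theorem exists_zpow_VS (hq : q ∉ S) (hA : A.LiesOverPrime (q : ℕ)) (v : VS S) :
    ∃ n : ℤ, A.valuation (toQb (inclS S v)) = A.valuation ((q : ℕ) : Qb) ^ n := by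
  obtain ⟨_, ⟨E, hE, _, rfl⟩, h⟩ := mem_VS_iff.1 v.2
  have := isGalois_Qb
  have hmem : toQb (inclS S v) ∈ E := by
    rw [← InfiniteGalois.fixedField_fixingSubgroup E, IntermediateField.mem_fixedField_iff]
    exact h
  exact Bridge.exists_zpow_of_isUnramifiedOutside hE hmem (toQb_ne_zero _) hq hA

/-- the normalised additive valuation on `ℚ_Sˣ` at a place outside `S` -/
noncomputable def wS (hq : q ∉ S) (hA : A.LiesOverPrime (q : ℕ)) (v : VS S) : ℤ :=
  (exists_zpow_VS hq hA v).choose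

theorem wS_spec (hq : q ∉ S) (hA : A.LiesOverPrime (q : ℕ)) (v : VS S) :
    A.valuation (toQb (inclS S v)) = A.valuation ((q : ℕ) : Qb) ^ wS hq hA v :=
  (exists_zpow_VS hq hA v).choose_spec

theorem zpow_val_injective (hA : A.LiesOverPrime (q : ℕ)) :
    Function.Injective fun n : ℤ => A.valuation ((q : ℕ) : Qb) ^ n := by
  have h1 : A.valuation ((q : ℕ) : Qb) < 1 := A.mem_nonunits_iff.mp hA
  have h0 : A.valuation ((q : ℕ) : Qb) ≠ 0 := by
    rw [Valuation.ne_zero_iff]
    exact_mod_cast q.2.ne_zero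
  exact zpow_right_injective₀ (zero_lt_iff.2 h0) h1.ne

theorem wS_eq (hq : q ∉ S) (hA : A.LiesOverPrime (q : ℕ)) {v : VS S} {n : ℤ}
    (h : A.valuation (toQb (inclS S v)) = A.valuation ((q : ℕ) : Qb) ^ n) : wS hq hA v = n :=
  zpow_val_injective hA ((wS_spec hq hA v).symm.trans h)

theorem wS_add (hq : q ∉ S) (hA : A.LiesOverPrime (q : ℕ)) (u v : VS S) :
    wS hq hA (u + v) = wS hq hA u + wS hq hA v := by
  apply wS_eq
  have h0 : A.valuation ((q : ℕ) : Qb) ≠ 0 := by
    rw [Valuation.ne_zero_iff]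
    exact_mod_cast q.2.ne_zero
  rw [map_add, toQb_add, map_mul, wS_spec hq hA u, wS_spec hq hA v, zpow_add₀ h0]

/-- `wS` as an additive homomorphism -/
noncomputable def wSHom (hq : q ∉ S) (hA : A.LiesOverPrime (q : ℕ)) : VS S →+ ℤ where
  toFun := wS hq hA
  map_zero' := by
    have := wS_add hq hA 0 0
    rw [add_zero] at this
    linarith
  map_add' := wS_add hq hA

theorem wSHom_rhoS (hq : q ∉ S) (hA : A.LiesOverPrime (q : ℕ)) {g : GQ}
    (hg : g ∈ A.decompositionSubgroup ℚ) (v : VS S) :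
    wSHom hq hA (rhoS S g v) = wSHom hq hA v := by
  refine wS_eq hq hA ?_
  rw [inclS_rhoS, toQb_rhoQ, Bridge.valuation_apply_of_mem_decomposition hg]
  exact wS_spec hq hA v

theorem wSHom_eq_zero_of_nsmul (hq : q ∉ S) (hA : A.LiesOverPrime (q : ℕ)) {v : VS S} {m : ℕ}
    (hm : m ≠ 0) (h : m • v = 0) : wSHom hq hA v = 0 := by
  have := congrArg (wSHom hq hA) h
  rw [map_nsmul, map_zero, nsmul_eq_mul] at this
  rcases mul_eq_zero.1 this with h | h
  · exact absurd (by exact_mod_cast h) hm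
  · exact h

end Val

section Main

variable {G : Type} [Group G] {p : ℕ} [Fact p.Prime] {S : Finset Nat.Primes}

/-- **The valuation trick.** -/
theorem exists_val_eq_zpow_mul (r : G →* GQ) (χ : G →* Multiplicative (ZMod p))
    (mu : ZMod p →+ VS S) (x : G × G → ZMod p) (a : VS S)
    (h : (fun g => mu (x g)) - cyc χ a ∈ B2 ((levS S).comap r) ((rhoS S).comp r))
    {q : Nat.Primes} (hq : q ∉ S) {A : ValuationSubring Qb} (hA : A.LiesOverPrime (q : ℕ))
    {τ : G} (hτD : r τ ∈ A.decompositionSubgroup ℚ) (hτ : χ τ ≠ 1) :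
    ∃ n : ℤ, A.valuation (toQb (inclS S a)) = A.valuation ((q : ℕ) : Qb) ^ ((p : ℤ) * n) := by
  have hp : p.Prime := Fact.out
  obtain ⟨φ, ⟨U, hU, hφU⟩, hφ⟩ := h
  have hmu : ∀ i, wSHom hq hA (mu i) = 0 := fun i =>
    wSHom_eq_zero_of_nsmul hq hA hp.ne_zero (by
      rw [← map_nsmul, nsmul_eq_mul, ZMod.natCast_self, zero_mul, map_zero])
  have key := dvd_of_carry_coboundary χ ((A.decompositionSubgroup ℚ).comap r) U
    (((levS S).comap r).finiteIndex U hU).index_ne_zero (fun g => wSHom hq hA (φ g))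
    (wSHom hq hA a) ?_ (fun g s hs => by simp only [hφU g s hs]) hτD hτ
  · obtain ⟨n, hn⟩ := key
    refine ⟨n, ?_⟩
    rw [← hn]
    exact wS_spec hq hA a
  · intro g hg h' _
    have e := congrArg (wSHom hq hA) (congrFun hφ (g, h'))
    simp only [d12_apply, Pi.sub_apply, cyc_apply, map_sub, map_add, map_nsmul, hmu,
      MonoidHom.comp_apply] at e
    rw [wSHom_rhoS hq hA hg] at e
    simp only [nsmul_eq_mul] at e
    linarith

end Main

end Fermat.Agent.CFT.Global
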